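import Fermat.Prelude.Def_FLTPrelim_ModularRep
import Fermat.Prelude.Def_FLTPrelim_Ramification
import Fermat.Prelude.Def_WeierstrassCurve_ConductorLevel
import Fermat.Prelude.Def_WeierstrassCurve_Mlc1RowStatement
import Fermat.Agent.Final.Wire

/-!
# Corollaries of the modularity of semistable curves
-/

set_option autoImplicit false

namespace Fermat.Agent.ModAll

open WeierstrassCurve WeierstrassCurve.Affine WeierstrassCurve.Affine.Point
open scoped WeierstrassCurve.Affine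

/-- Modularity of semistable models, with squarefree level with the correct prime divisors. -/
def ModAll : Prop := ∀ W : WeierstrassCurve ℤ, W.Δ ≠ 0 → W.IsSemistableModel →
  ∃ N : ℕ, Squarefree N ∧ (∀ q : ℕ, q.Prime → (q ∣ N ↔ (q : ℤ) ∣ W.Δ)) ∧
    W.IsModularModelOfLevel N

/-- **S59** from modularity -/
theorem exact_of (H : ModAll) (W : WeierstrassCurve ℤ) (hΔ : W.Δ ≠ 0) (hW : W.IsSemistableModel) :
    Mlc1IsModularModelOfExactConductorLevel W := by
  obtain ⟨N, h1, h2, h3⟩ := H W hΔ hW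
  exact ⟨N, Nat.pos_of_ne_zero h1.ne_zero, h1, h2, h3⟩

/-- **S60** from modularity -/
theorem s60_of (H : ModAll) (W : WeierstrassCurve ℤ) (hΔ : W.Δ ≠ 0) (hW : W.IsSemistableModel) :
    (W.map (Int.castRingHom ℚ)).IsModular := by
  obtain ⟨N, h1, h2, h3⟩ := H W hΔ hW
  exact ⟨W, ⟨1, one_smul _ _⟩, N, Nat.pos_of_ne_zero h1.ne_zero, h3⟩

/-- The level is the conductor level. -/
theorem eq_conductorLevel {W : WeierstrassCurve ℤ} (hΔ : W.Δ ≠ 0) {N : ℕ} (h1 : Squarefree N)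
    (h2 : ∀ q : ℕ, q.Prime → (q ∣ N ↔ (q : ℤ) ∣ W.Δ)) : N = W.conductorLevel := by
  have h3 : N.primeFactors = W.conductorLevel.primeFactors := by
    ext q
    rw [Nat.mem_primeFactors, Nat.mem_primeFactors]
    constructor
    · rintro ⟨hq, hqN, -⟩
      exact ⟨hq, (W.prime_dvd_conductorLevel_iff hΔ hq).mpr ((h2 q hq).mp hqN),
        W.conductorLevel_pos.ne'⟩
    · rintro ⟨hq, hqN, -⟩
      exact ⟨hq, (h2 q hq).mpr ((W.prime_dvd_conductorLevel_iff hΔ hq).mp hqN), h1.ne_zero⟩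
  rw [← Nat.prod_primeFactors_of_squarefree h1, h3,
    Nat.prod_primeFactors_of_squarefree W.squarefree_conductorLevel]

theorem conductorLevel_of (H : ModAll) (W : WeierstrassCurve ℤ) (hΔ : W.Δ ≠ 0)
    (hW : W.IsSemistableModel) : W.IsModularModelOfLevel W.conductorLevel := by
  obtain ⟨N, h1, h2, h3⟩ := H W hΔ hW
  rwa [eq_conductorLevel hΔ h1 h2] at h3

/-- **S58** from modularity -/
theorem s58_of (H : ModAll) (W : WeierstrassCurve ℤ) (hss : W.IsSemistableModel) (N : ℕ)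
    (hbad : ∀ ℓ : ℕ, ℓ.Prime → (ℓ : ℤ) ∣ W.Δ → ℓ ∣ N)
    (hN3 : ∀ q : ℕ, q.Prime → ¬ q ^ 3 ∣ N) :
    W.IsModularModelOfLevel W.conductorLevel := by
  refine conductorLevel_of H W (fun h0 => ?_) hss
  have hN0 : N ≠ 0 := by
    rintro rfl
    exact hN3 2 Nat.prime_two (dvd_zero _)
  obtain ⟨q, hq, hqp⟩ := Nat.exists_infinite_primes (N + 1)
  have h1 : q ∣ N := hbad q hqp (by rw [h0]; exact dvd_zero _)
  have := Nat.le_of_dvd (Nat.pos_of_ne_zero hN0) h1
  omega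

/-- **S50** from modularity -/
theorem s50_of (H : ModAll) (W : WeierstrassCurve ℤ) (hΔ : W.Δ ≠ 0) (hW : W.IsSemistableModel) :
    ∃ M : ℕ, 0 < M ∧ W.IsResiduallyModularOfLevel 3 M ∧
      (∀ q : ℕ, q.Prime → q ≠ 3 → ¬ q ^ 3 ∣ M) ∧
      (3 ^ 2 ∣ M →
        ∀ A : ValuationSubring (AlgebraicClosure ℚ), A.LiesOverPrime 3 →
          ∀ x : Submodule.torsionBy ℤ
              ((W.map (Int.castRingHom ℚ))⁄(AlgebraicClosure ℚ)).Point (3 : ℕ),
            (∀ σ ∈ A.inertiaSubgroupIn ℚ, σ • x = x) → x = 0) := by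
  obtain ⟨N, h1, h2, h3⟩ := H W hΔ hW
  have hsq : ∀ q : ℕ, q.Prime → ¬ q ^ 2 ∣ N := by
    intro q hq h
    rw [pow_two] at h
    exact hq.not_isUnit (h1 q h)
  refine ⟨N, Nat.pos_of_ne_zero h1.ne_zero,
    Final.residual_of_modular Nat.prime_three (fun ℓ hℓ h => (h2 ℓ hℓ).mpr h) h3
      (fun ℓ _ _ _ _ => by rw [sub_self]; exact dvd_zero _),
    fun q hq _ h => hsq q hq ((pow_dvd_pow q (by norm_num)).trans h),
    fun h => absurd h (hsq 3 Nat.prime_three)⟩

end Fermat.Agent.ModAll
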