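import Fermat.Agent.ModAll.Cor
import Fermat.Agent.Sw3.Wire
import Fermat.Agent.SwA.Main
import Fermat.Agent.RTX.Fin35
import Fermat.Agent.Final.ZThmFinal
import Fermat.Agent.SW2.Final

/-!
# Modularity of semistable curves
-/

set_option autoImplicit false

namespace Fermat.Agent.ModAll

/-- modularity lifting at `p = 3, 5` -/
theorem liftAll_of {p : ℕ} [hp : Fact p.Prime] (H : RTX.AmbOKX p) (hcase : p = 3 ∨ p = 5) :
    Sw3.LiftAll p := fun _ hΔ hss hirr _ hN₀ hpN₀ hres =>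
  RTX.lifting35_of H hcase hΔ hss hirr hN₀ hpN₀ hres

/-- **Modularity of semistable models.** -/
theorem modAll_of_ambOK (H3 : @RTX.AmbOKX 3 ⟨Nat.prime_three⟩)
    (H5 : @RTX.AmbOKX 5 ⟨Nat.prime_five⟩) : ModAll :=
  Sw3.modAll_of Final.zThm3 SW2.switch_two (@liftAll_of 3 ⟨Nat.prime_three⟩ H3 (Or.inl rfl))
    (@liftAll_of 5 ⟨Nat.prime_five⟩ H5 (Or.inr rfl))
    (fun W hΔ hW h2 ha B hB => SwA.switch_ss_two W hΔ hW h2 ha B hB)

/-- **Modularity of all semistable models.** -/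
theorem modAll : ModAll :=
  modAll_of_ambOK (@RTX.ambOKX 3 ⟨Nat.prime_three⟩) (@RTX.ambOKX 5 ⟨Nat.prime_five⟩)

end Fermat.Agent.ModAll
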